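import Mathlib
import Fermat.Prelude.Def_FLTPrelim_Modularity
import Fermat.Prelude.Def_FLTPrelim_Ramification
import Fermat.Agent.S05.SameRed

/-!
# Row S59, layer E (helper899): an integral Weierstrass model over `ℚ̄` with a place

Vocabulary shared by the pieces CR-U / CR-O: for `W : WeierstrassCurve ℤ` and a valuation
subring `A` of `ℚ̄`,

* `coeff lemmas` : the coefficients of `(W.map (Int.castRingHom ℚ))⁄ℚ̄` are the integers `W.aᵢ`;
* `integralCoeffs W A` : they are `A`-integral;
* `val_intCast_eq_one`, `val_intCast_lt_one` : valuations of integers at a place over `ℓ`;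
* `inertia_val_sub_lt_one`, `decomp_val_eq` : the inertia group acts trivially on the residue
  field, the decomposition group preserves the valuation.
-/

set_option autoImplicit false

namespace Fermat.Agent.S59.H899

open WeierstrassCurve WeierstrassCurve.Affine
open scoped WeierstrassCurve.Affine
open Fermat.Agent.S05.SameRed

/-- `ℚ̄` -/
abbrev QbarH : Type := AlgebraicClosure ℚ

/-- `Gal(ℚ̄/ℚ)` -/
abbrev GalQH : Type := QbarH ≃ₐ[ℚ] QbarH

section valuation

variable (A : ValuationSubring QbarH)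

lemma val_intCast_le_one (n : ℤ) : A.valuation (n : QbarH) ≤ 1 :=
  (A.valuation_le_one_iff _).mpr (intCast_mem A n)

lemma val_natCast_le_one' (n : ℕ) : A.valuation (n : QbarH) ≤ 1 :=
  (A.valuation_le_one_iff _).mpr (natCast_mem A n)

variable {A}

/-- An integer divisible by `q` lies in the maximal ideal. -/
lemma val_intCast_lt_one {q : ℕ} (hq : A.LiesOverPrime q) {n : ℤ} (hn : (q : ℤ) ∣ n) :
    A.valuation (n : QbarH) < 1 := by
  obtain ⟨m, rfl⟩ := hn
  have hq' : A.valuation (q : QbarH) < 1 := (A.mem_nonunits_iff).mp hq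
  push_cast
  rw [map_mul]
  exact (mul_le_of_le_one_right' (val_intCast_le_one A m)).trans_lt hq'

/-- An integer prime to `q` is a unit. -/
lemma val_intCast_eq_one {q : ℕ} (hq : A.LiesOverPrime q) (hqp : q.Prime) {n : ℤ}
    (hn : ¬ (q : ℤ) ∣ n) : A.valuation (n : QbarH) = 1 := by
  have hq' : A.valuation (q : QbarH) < 1 := (A.mem_nonunits_iff).mp hq
  have hcop : IsCoprime (q : ℤ) n :=
    (Prime.coprime_iff_not_dvd (Nat.prime_iff_prime_int.mp hqp)).mpr hn
  obtain ⟨u, w, huw⟩ := hcop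
  have h1 : (u : QbarH) * (q : QbarH) + (w : QbarH) * (n : QbarH) = 1 := by
    exact_mod_cast congrArg (Int.cast : ℤ → QbarH) huw
  have hsmall : A.valuation ((u : QbarH) * (q : QbarH)) < 1 := by
    rw [map_mul]
    exact (mul_le_of_le_one_left' (val_intCast_le_one A u)).trans_lt hq'
  have hwn : A.valuation ((w : QbarH) * (n : QbarH)) = 1 := by
    have h2 : (w : QbarH) * (n : QbarH) = 1 - (u : QbarH) * (q : QbarH) := by
      rw [← h1]; ring
    rw [h2]
    have := A.valuation.map_sub_eq_of_lt_left (x := (1 : QbarH))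
      (y := (u : QbarH) * (q : QbarH)) (by rw [map_one]; exact hsmall)
    rw [this, map_one]
  rw [map_mul] at hwn
  refine le_antisymm (val_intCast_le_one A n) ?_
  by_contra hlt
  rw [not_le] at hlt
  have : A.valuation (w : QbarH) * A.valuation (n : QbarH) < 1 :=
    (mul_le_of_le_one_left' (val_intCast_le_one A w)).trans_lt hlt
  exact absurd hwn (ne_of_lt this)

/-- A natural number prime to `q` is a unit. -/
lemma val_natCast_eq_one {q : ℕ} (hq : A.LiesOverPrime q) (hqp : q.Prime) {n : ℕ}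
    (hn : ¬ q ∣ n) : A.valuation (n : QbarH) = 1 := by
  have := val_intCast_eq_one hq hqp (n := (n : ℤ)) (by exact_mod_cast hn)
  simpa using this

/-- Elements of the inertia group act trivially on the residue field. -/
lemma inertia_val_sub_lt_one {σ : GalQH} (hσ : σ ∈ A.inertiaSubgroupIn ℚ) (z : QbarH)
    (hz : A.valuation z ≤ 1) : A.valuation (σ z - z) < 1 := by
  obtain ⟨g, hg, rfl⟩ := hσ
  have hzA : z ∈ A := (A.valuation_le_one_iff z).mp hz
  have h1 : MulSemiringAction.toRingAut (A.decompositionSubgroup ℚ)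
      (IsLocalRing.ResidueField A) g = 1 := hg
  have h2 : g • (IsLocalRing.residue A ⟨z, hzA⟩) = IsLocalRing.residue A ⟨z, hzA⟩ := by
    have := congrArg (fun f => f (IsLocalRing.residue A ⟨z, hzA⟩)) h1
    simpa using this
  rw [← IsLocalRing.ResidueField.residue_smul] at h2
  have h3 : (g • (⟨z, hzA⟩ : A)) - ⟨z, hzA⟩ ∈ IsLocalRing.maximalIdeal A := by
    rw [← Ideal.Quotient.eq]
    exact h2
  rw [ValuationSubring.valuation_lt_one_iff] at h3
  exact h3

end valuation

section model

variable (W : WeierstrassCurve ℤ)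

/-- the curve over `ℚ̄` attached to the integral model `W` -/
noncomputable abbrev curveQbar : WeierstrassCurve.Affine QbarH := (W.map (Int.castRingHom ℚ))⁄QbarH

lemma curveQbar_a₁ : (curveQbar W).a₁ = ((W.a₁ : ℤ) : QbarH) := by
  simp [WeierstrassCurve.baseChange]

lemma curveQbar_a₂ : (curveQbar W).a₂ = ((W.a₂ : ℤ) : QbarH) := by
  simp [WeierstrassCurve.baseChange]

lemma curveQbar_a₃ : (curveQbar W).a₃ = ((W.a₃ : ℤ) : QbarH) := by
  simp [WeierstrassCurve.baseChange]

lemma curveQbar_a₄ : (curveQbar W).a₄ = ((W.a₄ : ℤ) : QbarH) := by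
  simp [WeierstrassCurve.baseChange]

lemma curveQbar_a₆ : (curveQbar W).a₆ = ((W.a₆ : ℤ) : QbarH) := by
  simp [WeierstrassCurve.baseChange]

lemma curveQbar_eq_map : curveQbar W = W.map (Int.castRingHom QbarH) := by
  ext <;> simp [WeierstrassCurve.baseChange]

lemma curveQbar_Δ : (curveQbar W).Δ = ((W.Δ : ℤ) : QbarH) := by
  rw [curveQbar_eq_map, WeierstrassCurve.map_Δ]; rfl

lemma curveQbar_c₄ : (curveQbar W).c₄ = ((W.c₄ : ℤ) : QbarH) := by
  rw [curveQbar_eq_map, WeierstrassCurve.map_c₄]; rfl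

lemma curveQbar_b₂ : (curveQbar W).b₂ = ((W.b₂ : ℤ) : QbarH) := by
  rw [curveQbar_eq_map, WeierstrassCurve.map_b₂]; rfl

lemma curveQbar_b₄ : (curveQbar W).b₄ = ((W.b₄ : ℤ) : QbarH) := by
  rw [curveQbar_eq_map, WeierstrassCurve.map_b₄]; rfl

lemma curveQbar_b₆ : (curveQbar W).b₆ = ((W.b₆ : ℤ) : QbarH) := by
  rw [curveQbar_eq_map, WeierstrassCurve.map_b₆]; rfl

lemma curveQbar_b₈ : (curveQbar W).b₈ = ((W.b₈ : ℤ) : QbarH) := by
  rw [curveQbar_eq_map, WeierstrassCurve.map_b₈]; rfl

/-- the coefficients of the integral model are integral at every place -/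
lemma integralCoeffs (A : ValuationSubring QbarH) :
    IntegralCoeffs (curveQbar W) A.valuation :=
  ⟨by rw [curveQbar_a₁]; exact val_intCast_le_one A _,
   by rw [curveQbar_a₂]; exact val_intCast_le_one A _,
   by rw [curveQbar_a₃]; exact val_intCast_le_one A _,
   by rw [curveQbar_a₄]; exact val_intCast_le_one A _,
   by rw [curveQbar_a₆]; exact val_intCast_le_one A _⟩

variable {W}

lemma val_Δ_eq_one_of_good {A : ValuationSubring QbarH} {ℓ : ℕ} (hℓ : ℓ.Prime)
    (hA : A.LiesOverPrime ℓ) (hgood : W.IsGoodPrimeFor ℓ) :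
    A.valuation (curveQbar W).Δ = 1 := by
  rw [curveQbar_Δ]
  exact val_intCast_eq_one hA hℓ hgood

lemma val_Δ_lt_one_of_bad {A : ValuationSubring QbarH} {ℓ : ℕ}
    (hA : A.LiesOverPrime ℓ) (hbad : ¬ W.IsGoodPrimeFor ℓ) :
    A.valuation (curveQbar W).Δ < 1 := by
  rw [curveQbar_Δ]
  exact val_intCast_lt_one hA (not_not.mp hbad)

lemma val_c₄_eq_one_of_semistable {A : ValuationSubring QbarH} {ℓ : ℕ} (hℓ : ℓ.Prime)
    (hA : A.LiesOverPrime ℓ) (hss : W.IsSemistableModel) (hbad : ¬ W.IsGoodPrimeFor ℓ) :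
    A.valuation (curveQbar W).c₄ = 1 := by
  rw [curveQbar_c₄]
  exact val_intCast_eq_one hA hℓ (hss ℓ hℓ (not_not.mp hbad))

end model

end Fermat.Agent.S59.H899
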