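import Mathlib
import Fermat.Agent.S59.H899.ZModel
import Fermat.Agent.S05.GoodRed
import Fermat.Agent.S05.C1b
import Fermat.Agent.S59.H127.TateE

/-!
# Row S59, layer E, piece CR-U (helper899): the Tate module is unramified at good primes

For an integral Weierstrass model `W : WeierstrassCurve ℤ` and a prime `ℓ ∤ Δ(W)`:

* `inertia_smul_eq_self_of_good` : every inertia group at `ℓ` fixes every torsion point of
  `E(ℚ̄)` of order prime to `ℓ`  (finite level; input of
  `H127.tateGaloisRep_isUnramifiedAt`);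
* `galoisRepUnramifiedAt_of_good` : the Prelude's `GaloisRepUnramifiedAt` for `E[m]`, `ℓ ∤ m`;
* `tateGaloisRep_isUnramifiedAt_of_good` : the `p`-adic Tate module (`H127.tateGaloisRep`) is
  unramified at every good prime `ℓ ≠ p`  (= the field `unram` of `Arch.CurveRep` over `ℤ_p`).
-/

set_option autoImplicit false

namespace Fermat.Agent.S59.H899

open WeierstrassCurve WeierstrassCurve.Affine
open scoped WeierstrassCurve.Affine
open Fermat.Agent.S05

/-- **CR-U, finite level.**  At a prime `ℓ` of good reduction, inertia fixes the torsion points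
of order prime to `ℓ`. -/
theorem inertia_smul_eq_self_of_good (W : WeierstrassCurve ℤ) {ℓ : ℕ} (hℓ : ℓ.Prime)
    (hgood : W.IsGoodPrimeFor ℓ) {m : ℕ} (hm : ¬ ℓ ∣ m)
    (A : ValuationSubring QbarH) (hA : A.LiesOverPrime ℓ)
    (σ : GalQH) (hσ : σ ∈ A.inertiaSubgroupIn ℚ)
    (x : (curveQbar W).Point) (hx : m • x = 0) : σ • x = x := by
  have hW := integralCoeffs W A
  have hΔ : A.valuation (curveQbar W).Δ = 1 := val_Δ_eq_one_of_good hℓ hA hgood
  have hmv : A.valuation (m : QbarH) = 1 := val_natCast_eq_one hA hℓ hm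
  exact GoodRed.smul_eq_self_of_good_reduction
    (W' := (W.map (Int.castRingHom ℚ)).toAffine) (S := ℚ) hW hΔ σ
    (fun t ht => inertia_val_sub_lt_one hσ t ht) (m : ℤ)
    (fun Q hQ h => C1b.eq_zero_of_inKer_of_zsmul_eq_zero hW m hmv Q hQ h) x
    (by rwa [natCast_zsmul])

/-- prime powers of a prime `p ≠ ℓ` are prime to `ℓ` -/
lemma not_dvd_prime_pow {ℓ p : ℕ} (hℓ : ℓ.Prime) (hp : p.Prime) (hne : ℓ ≠ p) (n : ℕ) :
    ¬ ℓ ∣ p ^ n := fun h =>
  hne ((Nat.prime_dvd_prime_iff_eq hℓ hp).mp (hℓ.dvd_of_dvd_pow h))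

/-- **CR-U** in the Prelude's vocabulary: `E[m]` is unramified at the good primes `ℓ ∤ m`. -/
theorem galoisRepUnramifiedAt_of_good (W : WeierstrassCurve ℤ) {ℓ : ℕ} (hℓ : ℓ.Prime)
    (hgood : W.IsGoodPrimeFor ℓ) {m : ℕ} (hm : ¬ ℓ ∣ m) :
    WeierstrassCurve.Affine.Point.GaloisRepUnramifiedAt (K := AlgebraicClosure ℚ) ℚ
      (W.map (Int.castRingHom ℚ)).toAffine m ℓ := by
  intro A hA σ hσ x
  apply Subtype.ext
  have hx : m • (x : (curveQbar W).Point) = 0 := by
    have := x.2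
    rw [Submodule.mem_torsionBy_iff] at this
    rwa [natCast_zsmul] at this
  exact inertia_smul_eq_self_of_good W hℓ hgood hm A hA σ hσ x hx

/-- **CR-U, Tate module.**  The `p`-adic Tate module of `W` is unramified at the good primes
`ℓ ≠ p`. -/
theorem tateGaloisRep_isUnramifiedAt_of_good (W : WeierstrassCurve ℤ)
    [(curveQbar W).IsElliptic] {p : ℕ} [hp : Fact p.Prime]
    (cb : H127.CompatBasis (curveQbar W).Point p 2) {ℓ : ℕ} (hℓ : ℓ.Prime)
    (hgood : W.IsGoodPrimeFor ℓ) (hne : ℓ ≠ p) :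
    (H127.tateGaloisRep (W.map (Int.castRingHom ℚ)).toAffine cb).IsUnramifiedAt ℓ :=
  H127.tateGaloisRep_isUnramifiedAt _ cb ℓ fun A hA σ hσ n x hx =>
    inertia_smul_eq_self_of_good W hℓ hgood (not_dvd_prime_pow hℓ hp.out hne n) A hA σ hσ x hx

/-- the curve over `ℚ̄` is elliptic as soon as `Δ(W) ≠ 0` -/
theorem isElliptic_curveQbar (W : WeierstrassCurve ℤ) (hΔ : W.Δ ≠ 0) :
    (curveQbar W).IsElliptic := by
  refine ⟨?_⟩
  rw [curveQbar_Δ]
  exact isUnit_iff_ne_zero.mpr (by exact_mod_cast hΔ)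

end Fermat.Agent.S59.H899
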